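import Mathlib
import Fermat.Agent.GAL.ModuleDefs

/-!
# ORD : the two geometric contracts of S33 (elementwise, in terms of Laurent series).  No sorry.

`M₁` admissible level prime to `p`, `M = M₁ * p`, `A ∣ p` a place of `ℚ̄`, `I` its inertia group, `U = NmL Qb p`.
-/

set_option autoImplicit false

open ModularCurve AlgebraicCurve

noncomputable section

namespace Fermat.Agent.ORD

open Fermat.Agent.GAL

/-- **(CORE)**  a `U`-periodic class of exponent `p` at level `M₁ p`, with a generator `≡ 1` at `∞`, fixed by an element `s0` of inertia with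
`ε(s0) ≢ 1 mod p`, is trivial. -/
def CoreStatement : Prop :=
  ∀ (M₁ p : ℕ) [NeZero p], M₁ ≠ 0 → AdmLevel M₁ → p.Prime → p ≠ 2 → ¬ p ∣ M₁ →
    ∀ A : ValuationSubring Qb, A.LiesOverPrime p → ∀ s0 ∈ A.inertiaSubgroupIn ℚ,
    ∀ a : ℕ, (∀ ζ : Qb, ζ ^ p = 1 → s0 ζ = ζ ^ a) → ¬ a ≡ 1 [MOD p] →
    ∀ u : LaurentSeries Qb, IsKum Qb (M₁ * p) p u → GR.HasRed A (u ^ p) 1 →
      (∃ n : ℕ, 0 < n ∧ ((NmL Qb p)^[n] u) / u ∈ FL Qb (M₁ * p)) →
      galS s0 u / u ∈ FL Qb (M₁ * p) → u ∈ FL Qb (M₁ * p)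

/-- **(WF)** "weak Fontaine": a class of exponent `p` at level `M₁` (good reduction), killed by `T_p` and fixed by
`H₁ = {τ ∈ I | τ = 1 on μ_p}`, is trivial. -/
def WFStatement : Prop :=
  ∀ (M₁ p : ℕ) [NeZero p], M₁ ≠ 0 → AdmLevel M₁ → p.Prime → p ≠ 2 → ¬ p ∣ M₁ →
    ∀ A : ValuationSubring Qb, A.LiesOverPrime p →
    ∀ u : LaurentSeries Qb, IsKum Qb M₁ p u → heckeS Qb p u ∈ FL Qb M₁ →
      (∀ τ ∈ A.inertiaSubgroupIn ℚ, (∀ ζ : Qb, ζ ^ p = 1 → τ ζ = ζ) → galS τ u / u ∈ FL Qb M₁) →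
      u ∈ FL Qb M₁

end Fermat.Agent.ORD
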