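import Fermat.Agent.ORD.P0.Main
import Fermat.Agent.ORD.P1.Inertia
import Fermat.Agent.ORD.P6.Final
import Fermat.Agent.ORD.P7.OrdLat
import Fermat.Agent.ORD.P7.HCore
import Fermat.Agent.TOR.AnU.Main
import Fermat.Agent.TOR.S34Chain
import Fermat.Agent.GAL.Cheb.Export

/-!
# ORD / Chain : S33 (verbatim) from the key lemma and the two geometric contracts (CORE), (WF).
-/

set_option autoImplicit false

open ModularCurve AlgebraicCurve CongruenceSubgroup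
open Fermat.Agent.GAL Fermat.Agent.GAL.HK Fermat.Agent.GR Fermat.Agent.GR.CB Fermat.Agent.TOR
open Fermat.Agent.ORD.P0 Fermat.Agent.ORD.P7 IsLocalRing
open scoped MatrixGroups

noncomputable section

namespace Fermat.Agent.ORD

local notation "Qbar'" => AlgebraicClosure ℚ

/-- arithmetic of the auxiliary level. -/
theorem aux_level {N p : ℕ} (hN0 : N ≠ 0) (hp : p.Prime) (hp2 : p ≠ 2) (hN : p ∣ N ∧ ¬ p ^ 2 ∣ N) :
    ∃ M₁ : ℕ, M₁ ≠ 0 ∧ AdmLevel M₁ ∧ ¬ p ∣ M₁ ∧ N ∣ M₁ * p ∧ AdmLevel (M₁ * p) := by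
  obtain ⟨k, rfl⟩ := hN.1
  have hk0 : k ≠ 0 := fun h => hN0 (by rw [h, mul_zero])
  refine ⟨4 * k, Nat.mul_ne_zero (by norm_num) hk0, Or.inl (Dvd.intro k rfl), ?_,
    ⟨4, by ring⟩, Or.inl ⟨k * p, by ring⟩⟩
  intro h
  rcases (Nat.Prime.dvd_mul hp).1 h with h4 | hk
  · have h2 : p ∣ 2 := hp.dvd_of_dvd_pow (show p ∣ 2 ^ 2 by norm_num; exact h4)
    exact hp2 ((Nat.prime_dvd_prime_iff_eq hp Nat.prime_two).1 h2)
  · apply hN.2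
    obtain ⟨j, rfl⟩ := hk
    exact ⟨j, by ring⟩

theorem S33_of_contracts (hK : KeyLemmaStatement) (hC : CoreStatement) (hW : WFStatement)
    {p : ℕ} {N : ℕ} [NeZero N] {S : Finset ℕ}
    {𝒪 : Type} [CommRing 𝒪] [IsDomain 𝒪] [IsDiscreteValuationRing 𝒪]
    [IsAdicComplete (IsLocalRing.maximalIdeal 𝒪) 𝒪]
    {θ : CuspForm.heckeAlgebra N 2 (↑S : Set ℕ) →+* IsLocalRing.ResidueField 𝒪}
    {T : Type} [CommRing T] [IsLocalRing T] [IsNoetherianRing T]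
    [IsAdicComplete (IsLocalRing.maximalIdeal T) T] [Algebra 𝒪 T] [IsLocalHom (algebraMap 𝒪 T)]
    [Module.Finite 𝒪 T] [Module.Free 𝒪 T]
    [Finite (IsLocalRing.ResidueField 𝒪)] [CharZero 𝒪]
    (hp : p.Prime) (hp2 : p ≠ 2) (hp𝒪 : (p : 𝒪) ∈ IsLocalRing.maximalIdeal 𝒪)
    (hN : p ∣ N ∧ ¬ p ^ 2 ∣ N)
    (hNS : ∀ q : ℕ, q.Prime → q ∣ N → q ∈ S)
    (H : CuspForm.HeckeGaloisRepDatum N (↑S : Set ℕ) 𝒪 θ T)
    (hres : (GaloisRepAdic.ofResidualGaloisRep H.ρ.residual).IsOrdinaryAt p) :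
    H.ρ.IsOrdinaryAt p := by
  classical
  have hcheb := Fermat.Agent.GAL.Cheb.weakChebotarev_asm
  obtain ⟨M₁, hM₁0, hM₁, hpM₁, hNM, hM⟩ := aux_level (NeZero.ne N) hp hp2 hN
  have : NeZero p := ⟨hp.ne_zero⟩
  have : NeZero M₁ := ⟨hM₁0⟩
  have : NeZero (M₁ * p) := ⟨Nat.mul_ne_zero hM₁0 hp.ne_zero⟩
  have hpM : p ∣ M₁ * p := Dvd.intro_left M₁ rfl
  -- the bad set
  set bad : Finset ℕ := S ∪ (M₁ * p).primeFactors with hbaddef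
  have hSbad : S ⊆ bad := Finset.subset_union_left
  have hbadM : ∀ q : ℕ, q.Prime → q ∣ M₁ * p → q ∈ bad := fun q hq hd =>
    Finset.mem_union_right _ (Nat.mem_primeFactors.2 ⟨hq, hd, NeZero.ne _⟩)
  have hpbad : p ∈ bad := hbadM p hp hpM
  have hbad : ∀ ℓ : ℕ, ℓ.Prime → ℓ ∉ bad → ¬ ℓ ∣ M₁ * p * p := by
    intro ℓ hℓ hb hd
    rcases (Nat.Prime.dvd_mul hℓ).1 hd with h | h
    · exact hb (hbadM ℓ hℓ h)
    · exact hb (hbadM ℓ hℓ (Dvd.dvd.mul_left h M₁))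
  have hbad₁ : ∀ ℓ : ℕ, ℓ.Prime → ℓ ∉ bad → ¬ ℓ ∣ M₁ * p := fun ℓ hℓ hb hd => hb (hbadM ℓ hℓ hd)
  -- the Hecke ring
  obtain ⟨r, hr⟩ := Fermat.Agent.GR.Adic.levelRes N (M₁ * p) hNM (↑S : Set ℕ) (↑bad : Set ℕ)
    (by exact_mod_cast hSbad) (fun q hq => by exact_mod_cast hbadM q hq.1 hq.2)
  set ψ : HH →+* T := (H.π.comp r).comp (eH (M₁ * p) (↑bad : Set ℕ)) with hψdef
  have hψ : ∀ (ℓ : ℕ) (hℓ : ℓ.Prime) (hℓN : ¬ ℓ ∣ N) (hℓS : ℓ ∉ (↑S : Set ℕ)), ℓ ∉ bad →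
      ψ (MvPolynomial.X ℓ) = H.π (CuspForm.heckeAlgebra.T hℓ hℓN hℓS) := by
    intro ℓ hℓ hℓN hℓS hb
    rw [hψdef, RingHom.comp_apply, RingHom.comp_apply,
      eH_X_of_good (M₁ * p) (↑bad : Set ℕ) hℓ (hbad₁ ℓ hℓ hb) (by exact_mod_cast hb), hr]
  have hψ0 : ∀ ℓ : ℕ, ¬ (ℓ.Prime ∧ ℓ ∉ bad) → ψ (MvPolynomial.X ℓ) = 0 := by
    intro ℓ h
    rw [hψdef, RingHom.comp_apply, eH_X, tauH, dif_neg, map_zero]
    rintro ⟨h1, -, h3⟩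
    exact h ⟨h1, by exact_mod_cast h3⟩
  have hatt : ∀ ℓ : ℕ, ℓ.Prime → ℓ ∉ bad → ∀ A : ValuationSubring Qbar', A.LiesOverPrime ℓ →
      ∀ σ : GAL.GQ, A.IsFrobeniusAt σ ℓ →
        LinearMap.charpoly (H.ρ.ρ σ) = Polynomial.X ^ 2
          - Polynomial.C (ψ (MvPolynomial.X ℓ)) * Polynomial.X + Polynomial.C (ℓ : T) := by
    intro ℓ hℓ hb A hA σ hσ
    have hℓS : ℓ ∉ (↑S : Set ℕ) := fun h => hb (hSbad (by exact_mod_cast h))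
    have hℓN : ¬ ℓ ∣ N := fun h => hℓS (by exact_mod_cast hNS ℓ hℓ h)
    rw [hψ ℓ hℓ hℓN hℓS hb]
    exact H.charpoly_frob ℓ hℓ hℓN hℓS A hA σ hσ
  -- the ring `T`
  have : Finite (ResidueField T) :=
    Finite.of_surjective (ResidueField.map (algebraMap 𝒪 T)) (by
      intro x
      obtain ⟨a, ha⟩ := H.residue_surjective x
      exact ⟨residue 𝒪 a, ha⟩)
  have hpT : (p : T) ∈ maximalIdeal T := by
    have := map_nonunit (algebraMap 𝒪 T) (p : 𝒪) hp𝒪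
    rwa [map_natCast] at this
  -- the geometric objects
  set 𝒜 := AN.anFamily (M₁ * p) p hp.ne_zero hM with h𝒜
  set 𝒜₁ := AN.anFamily M₁ p hp.ne_zero hM₁ with h𝒜₁
  have hes : RT.ESElem 𝒜 := RT.esElem_of_keyLemma hM 𝒜 hK
  have hes₁ : RT.ESElem 𝒜₁ := RT.esElem_of_keyLemma hM₁ 𝒜₁ hK
  have hAU : AnU 𝒜 p hp hpM := anU_anFamily (M₁ * p) p hp.ne_zero hM hp hpM
  have hord := ordLatH hW hcheb hM₁ hp hp2 hpM₁ 𝒜₁ hes₁ bad hpbad hbad₁ hpT ψ H.ρ hatt hres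
  have hFL := P6.faithLatH hcheb hp hp2 hp𝒪 hNS H M₁ hM₁ hpM₁ hNM bad hSbad hbadM ψ hψ hψ0 hord
  have hfaith := faithS hp hpM 𝒜 hes bad hbad hAU ψ hFL
  intro P hP
  obtain ⟨s0, hs0, hs0a⟩ := Fermat.Agent.ORD.P1.exists_inertia_pow P hp hP 1 2 (fun h =>
    hp2 ((Nat.prime_dvd_prime_iff_eq hp Nat.prime_two).1 h))
  have ha : ¬ 2 ≡ 1 [MOD p] := by
    intro h
    have h1 : p ∣ 2 - 1 := (Nat.modEq_iff_dvd' (by norm_num)).1 h.symm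
    exact hp.one_lt.ne' (Nat.dvd_one.1 (by simpa using h1))
  exact ordAt_of_hsys hcheb hp hpbad
    (rawS hp 𝒜 hes bad hbad (US hAU) (US_actS hAU)).toHSys hpT ψ H.ρ
    (attachedS hp 𝒜 hes bad hbad (US hAU) (US_actS hAU) ψ H.ρ hatt) H.residual_absIrr hres P hP
    s0 hs0 2 (fun ζ hζ => hs0a ζ (by rwa [pow_one])) ha (K1S 𝒜 P)
    (fun τ hτ x => hK1S hp 𝒜 P τ hτ x)
    (fun y hy hpy hper hfix => hcoreS hC hM₁0 hM₁ hp hp2 hpM₁ 𝒜 hAU P hP s0 hs0 2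
      (fun ζ hζ => hs0a ζ (by rwa [pow_one])) ha y hy hpy hper hfix)
    hfaith

end Fermat.Agent.ORD
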